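/-
S36 engine, MOD-3 (helper83): the Gauss valuation `V∞` of level `M q` over the `β`-structure
(`β : F_M → F_{Mq}`, `t ↦ t^q`), in the vocabulary of `A2/Mod/Spec.lean`.

* `h83_beta_mem_iff`   : `β f ∈ V∞_{Mq} ↔ f ∈ V∞_M`                       (`V∞_{Mq}` lies over `β V∞_M`);
* `h83_beta_indep`     : `∑_{i<q} β(a_i) j^i ∈ w V∞_{Mq}`, `a_i ∈ V∞_M` `⟹` `a_i ∈ w V∞_M`
                         (the residues of `1, j, …, j^{q-1}` are independent over `κ(β V∞_M)`).
-/
import Fermat.Agent.S36.H83.BetaDeg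
import Fermat.Agent.A2.Mod.H708.Vinf
import Fermat.Agent.A2.Mod.H753.IndInf
import Fermat.Agent.A2.Mod.H96.L12

set_option autoImplicit false
set_option linter.unusedSectionVars false
set_option linter.style.haveILetI false
set_option synthInstance.maxHeartbeats 400000
set_option maxHeartbeats 1600000

noncomputable section

namespace Fermat.Agent.S36.H83

open ModularCurve Fermat.Agent.A2 Fermat.Agent.A2.Mod

section BetaVal

variable (P : ValuationSubring Qb) (E : IntermediateField ℚ Qb) (M q : ℕ) [NeZero M] [NeZero q]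

variable {P E M q}

/-- `incl` commutes with `t ↦ t^q`. -/
theorem h83_incl_qExpand (U : LaurentSeries (RE P E)) :
    H708.incl (RE P E) (qExpand _ q U) = qExpand E q (H708.incl (RE P E) U) :=
  coeffMap_qExpand _ q U

/-- `red` commutes with `t ↦ t^q`. -/
theorem h83_red_qExpand (U : LaurentSeries (RE P E)) :
    H708.red (RE P E) (qExpand _ q U) = qExpand _ q (H708.red (RE P E) U) :=
  coeffMap_qExpand _ q U

theorem h83_red_qExpand_ne_zero {U : LaurentSeries (RE P E)} (hU : H708.red (RE P E) U ≠ 0) :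
    H708.red (RE P E) (qExpand _ q U) ≠ 0 := by
  rw [h83_red_qExpand]
  intro h
  exact hU (qExpand_injective q (by rw [h, map_zero]))

/-- `β` maps `V∞_M` into `V∞_{Mq}`. -/
theorem h83_beta_mem {VM : ValuationSubring (FE E M)} {V : ValuationSubring (FE E (M * q))}
    (hVM : IsVinf P E M VM) (hV : IsVinf P E (M * q) V) {f : FE E M} (hf : f ∈ VM) :
    βE E M q f ∈ V := by
  obtain ⟨U₁, U₂, hU₂, hU₂F, he⟩ := (hVM f).mp hf
  rw [hV]
  refine ⟨qExpand _ q U₁, qExpand _ q U₂, h83_red_qExpand_ne_zero hU₂, ?_, ?_⟩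
  · rw [h83_incl_qExpand]
    have := (βE E M q ⟨H708.incl (RE P E) U₂, hU₂F⟩).2
    rwa [coe_heckeBetaBar] at this
  · rw [coe_heckeBetaBar, h83_incl_qExpand, h83_incl_qExpand, ← map_mul, he]

/-- **`V∞_{Mq}` lies over `β(V∞_M)`.** -/
theorem h83_beta_mem_iff (hdvr : IsDiscreteValuationRing (RE P E))
    {VM : ValuationSubring (FE E M)} {V : ValuationSubring (FE E (M * q))}
    (hVM : IsVinf P E M VM) (hV : IsVinf P E (M * q) V) (f : FE E M) :
    βE E M q f ∈ V ↔ f ∈ VM := by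
  have := hdvr
  refine ⟨fun h => ?_, fun h => h83_beta_mem hVM hV h⟩
  by_cases hf0 : f = 0
  · rw [hf0]; exact VM.zero_mem
  obtain ⟨c, hc, hu⟩ := H708.exists_const_mul_unit_of_isVinf hVM hf0
  set u : FE E M := f * (algebraMap E (FE E M) c)⁻¹ with hudef
  have hcF : algebraMap E (FE E M) c ≠ 0 := by
    rw [Ne, map_eq_zero]; exact hc
  have hu1 : u ∈ VM := (VM.valuation_le_one_iff u).mp hu.le
  have hu2 : u⁻¹ ∈ VM := by
    rw [← VM.valuation_le_one_iff, map_inv₀, hu, inv_one]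
  have hfu : f = u * algebraMap E (FE E M) c := by
    rw [hudef, mul_assoc, inv_mul_cancel₀ hcF, mul_one]
  have hu0 : u ≠ 0 := by
    intro h0
    rw [h0, map_zero] at hu
    exact zero_ne_one hu
  -- `c = β f · β u⁻¹ ∈ V`
  have hβc : algebraMap E (FE E (M * q)) c = βE E M q f * βE E M q u⁻¹ := by
    rw [← map_mul, hfu, mul_comm u, mul_assoc, mul_inv_cancel₀ hu0, mul_one]
    exact ((βE E M q).commutes c).symm
  have hcV : algebraMap E (FE E (M * q)) c ∈ V := by
    rw [hβc]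
    exact V.mul_mem _ _ h (h83_beta_mem hVM hV hu2)
  have hcR : c ∈ RE P E := (H708.algebraMap_mem_iff_of_isVinf hV c).mp hcV
  rw [hfu]
  exact VM.mul_mem _ _ hu1 ((H708.algebraMap_mem_iff_of_isVinf hVM c).mpr hcR)

/-- the integral series of `j`. -/
abbrev h83_JR (P : ValuationSubring Qb) (E : IntermediateField ℚ Qb) : LaurentSeries (RE P E) :=
  H708.castA (RE P E) (H708.jInt 1)

theorem h83_red_JR :
    H708.red (RE P E) (h83_JR P E) = jqModC (IsLocalRing.ResidueField (RE P E)) := by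
  show coeffMap _ (coeffMap _ (jqNModC ℤ 1)) = _
  rw [coeffMap_jqNModC, coeffMap_jqNModC, jqNModC_one]

/-- a finite family of elements of `V∞` has a common primitive denominator. -/
theorem h83_exists_common_denom {N n : ℕ} {V : ValuationSubring (FE E N)}
    (hV : IsVinf P E N V) (a : Fin n → FE E N) (ha : ∀ i, a i ∈ V) :
    ∃ (D : LaurentSeries (RE P E)) (A : Fin n → LaurentSeries (RE P E)),
      H708.red (RE P E) D ≠ 0 ∧ H708.incl (RE P E) D ∈ FE E N ∧
      ∀ i, (a i : LaurentSeries E) * H708.incl (RE P E) D = H708.incl (RE P E) (A i) := by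
  classical
  have hrep : ∀ i, ∃ U₁ U₂ : LaurentSeries (RE P E), H708.red (RE P E) U₂ ≠ 0 ∧
      H708.incl (RE P E) U₂ ∈ FE E N ∧
      (a i : LaurentSeries E) * H708.incl (RE P E) U₂ = H708.incl (RE P E) U₁ :=
    fun i => (hV (a i)).mp (ha i)
  choose U₁ U₂ hU₂ hU₂F he using hrep
  refine ⟨∏ i, U₂ i, fun i => U₁ i * ∏ l ∈ Finset.univ.erase i, U₂ l, ?_, ?_, ?_⟩
  · rw [map_prod]
    exact Finset.prod_ne_zero_iff.mpr fun i _ => hU₂ i
  · rw [map_prod]
    exact prod_mem fun i _ => hU₂F i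
  · intro i
    rw [← Finset.mul_prod_erase Finset.univ U₂ (Finset.mem_univ i), map_mul, map_mul,
      ← mul_assoc, he i]

/-- **Independence of `1, j, …, j^{q-1}` modulo `w` over `β(V∞_M)`.** -/
theorem h83_beta_indep (hdvr : IsDiscreteValuationRing (RE P E)) {w : RE P E}
    (hw : Irreducible w)
    {VM : ValuationSubring (FE E M)} {V : ValuationSubring (FE E (M * q))}
    (hVM : IsVinf P E M VM) (hV : IsVinf P E (M * q) V)
    (a : Fin q → FE E M) (ha : ∀ i, a i ∈ VM)
    (h : InW P E (M * q) V w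
      (∑ i : Fin q, βE E M q (a i) * jE E (M * q) 1 (one_dvd _) ^ (i : ℕ))) :
    ∀ i, InW P E M VM w (a i) := by
  classical
  have := hdvr
  obtain ⟨D, A, hD, hDF, hA⟩ := h83_exists_common_denom hVM a ha
  have hw0 : w ≠ 0 := hw.ne_zero
  have hwm : w ∈ IsLocalRing.maximalIdeal (RE P E) :=
    (IsLocalRing.mem_maximalIdeal _).mpr hw.not_isUnit
  -- the element `β D`
  set Dm : FE E M := ⟨H708.incl (RE P E) D, hDF⟩ with hDm
  have hDmV : Dm ∈ VM := H708.mem_of_isVinf_of_incl hVM D rfl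
  have hβD : βE E M q Dm ∈ V := h83_beta_mem hVM hV hDmV
  set S : FE E (M * q) :=
    ∑ i : Fin q, βE E M q (a i) * jE E (M * q) 1 (one_dvd _) ^ (i : ℕ) with hS
  set T : LaurentSeries (RE P E) := ∑ i : Fin q, qExpand _ q (A i) * h83_JR P E ^ (i : ℕ)
    with hT
  have hcoe : ((S * βE E M q Dm : FE E (M * q)) : LaurentSeries E) = H708.incl (RE P E) T := by
    rw [hS, Finset.sum_mul, hT, map_sum]
    rw [show (((∑ i : Fin q, βE E M q (a i) * jE E (M * q) 1 (one_dvd _) ^ (i : ℕ)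
          * βE E M q Dm : FE E (M * q))) : LaurentSeries E)
        = ∑ i : Fin q, (((βE E M q (a i) * jE E (M * q) 1 (one_dvd _) ^ (i : ℕ)
          * βE E M q Dm : FE E (M * q))) : LaurentSeries E) from
      map_sum (algebraMap (FE E (M * q)) (LaurentSeries E)) _ _]
    refine Finset.sum_congr rfl fun i _ => ?_
    rw [IntermediateField.coe_mul, IntermediateField.coe_mul, IntermediateField.coe_pow,
      coe_heckeBetaBar, coe_heckeBetaBar, H708.coe_jE_eq (P := P) (M * q) 1 (one_dvd _),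
      map_mul, map_pow, h83_incl_qExpand, ← hA i, map_mul]
    ring
  have hInW : InW P E (M * q) V w (S * βE E M q Dm) := by
    unfold InW at h ⊢
    rw [mul_right_comm]
    exact V.mul_mem _ _ h hβD
  have hred : H708.red (RE P E) T = 0 :=
    H753.red_eq_zero_of_inW hV hw0 hwm hcoe hInW
  rw [hT, map_sum] at hred
  have hred' : ∑ i : Fin q, qExpand _ q (H708.red (RE P E) (A i))
      * jqModC (IsLocalRing.ResidueField (RE P E)) ^ (i : ℕ) = 0 := by
    rw [← hred]
    refine Finset.sum_congr rfl fun i _ => ?_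
    rw [map_mul, map_pow, h83_red_qExpand, h83_red_JR]
  have hzero := h83_linIndep_fin (IsLocalRing.ResidueField (RE P E))
    (fun i => H708.red (RE P E) (A i)) hred'
  intro i
  obtain ⟨U', hU'⟩ := H96.exists_incl_eq_inv_mul (RE P E) hw (hzero i)
  unfold InW
  rw [hVM]
  refine ⟨U', D, hD, hDF, ?_⟩
  rw [hU', ← hA i, IntermediateField.coe_mul, IntermediateField.coe_inv, H753.coe_cE]
  have hwE : H708.cst ((w : E))⁻¹ = (H708.cst (w : E))⁻¹ := map_inv₀ _ _
  rw [hwE]
  ring

/-! ### The integral power basis `1, j, …, j^{q-1}` of `V∞_{Mq}` over `β(V∞_M)`, `q ∣ M` -/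

theorem h83_coe_jE (N d : ℕ) [NeZero d] (hd : d ∣ N) :
    ((jE E N d hd : FE E N) : LaurentSeries E) = qExpand E d (jqModC E) := by
  show coeffEmb E (qExpand ℚ d jq) = _
  rw [coeffEmb, ← jqModC_rat, coeffMap_qExpand, coeffMap_jqModC]

theorem h83_coe_sum {N n : ℕ} (g : Fin n → FE E N) :
    ((∑ i, g i : FE E N) : LaurentSeries E) = ∑ i, (g i : LaurentSeries E) :=
  map_sum (algebraMap (FE E N) (LaurentSeries E)) g _

theorem h83_coe_betaSum (a : Fin q → FE E M) :
    ((∑ i : Fin q, βE E M q (a i) * jE E (M * q) 1 (one_dvd _) ^ (i : ℕ) : FE E (M * q)) :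
        LaurentSeries E)
      = ∑ i : Fin q, qExpand E q (a i : LaurentSeries E) * jqModC E ^ (i : ℕ) := by
  rw [h83_coe_sum]
  refine Finset.sum_congr rfl fun i _ => ?_
  rw [IntermediateField.coe_mul, IntermediateField.coe_pow, coe_heckeBetaBar, h83_coe_jE,
    qExpand_one_apply]

/-- **Spanning**: for `q ∣ M` every element of `F_{Mq}` is `∑_{i<q} β(a_i) j^i`. -/
theorem h83_exists_beta_expansion_FE (hq : q.Prime) (hqM : q ∣ M) (f : FE E (M * q)) :
    ∃ a : Fin q → FE E M,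
      f = ∑ i : Fin q, βE E M q (a i) * jE E (M * q) 1 (one_dvd _) ^ (i : ℕ) := by
  have hf : (f : LaurentSeries E) ∈ modularFunctionFieldFullC E (M * q) := by
    rw [← S28.H988.laurentBaseChange_full_eq_fullC]
    exact f.2
  obtain ⟨a', ha', hfa⟩ := h83_exists_beta_expansion E hq (NeZero.ne M) hqM hf
  have ha'' : ∀ i, a' i ∈ FE E M := fun i => by
    show a' i ∈ laurentBaseChange E (modularFunctionFieldFull M)
    rw [S28.H988.laurentBaseChange_full_eq_fullC]
    exact ha' i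
  refine ⟨fun i => ⟨a' i, ha'' i⟩, Subtype.ext ?_⟩
  rw [h83_coe_betaSum, hfa]

/-- **Integral power basis**: for `q ∣ M` every element of `V∞_{Mq}` is `∑_{i<q} β(a_i) j^i`
with `a_i ∈ V∞_M`. -/
theorem h83_beta_integral_basis (hdvr : IsDiscreteValuationRing (RE P E)) {w : RE P E}
    (hw : Irreducible w) (hq : q.Prime) (hqM : q ∣ M)
    {VM : ValuationSubring (FE E M)} {V : ValuationSubring (FE E (M * q))}
    (hVM : IsVinf P E M VM) (hV : IsVinf P E (M * q) V) {f : FE E (M * q)} (hf : f ∈ V) :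
    ∃ a : Fin q → FE E M, (∀ i, a i ∈ VM) ∧
      f = ∑ i : Fin q, βE E M q (a i) * jE E (M * q) 1 (one_dvd _) ^ (i : ℕ) := by
  classical
  have := hdvr
  obtain ⟨a, hfa⟩ := h83_exists_beta_expansion_FE hq hqM f
  refine ⟨a, ?_, hfa⟩
  by_contra hcon
  rw [not_forall] at hcon
  obtain ⟨i₁, hi₁⟩ := hcon
  obtain ⟨i₀, -, hmax⟩ := Finset.exists_max_image Finset.univ
    (fun i => VM.valuation (a i)) ⟨i₁, Finset.mem_univ _⟩
  have h1 : 1 < VM.valuation (a i₀) :=
    lt_of_lt_of_le (by rwa [← not_le, VM.valuation_le_one_iff]) (hmax i₁ (Finset.mem_univ _))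
  have ha0 : a i₀ ≠ 0 := by
    intro h
    rw [h, map_zero] at h1
    exact absurd h1 (not_lt.mpr zero_le_one)
  obtain ⟨c, hc, hu⟩ := H708.exists_const_mul_unit_of_isVinf hVM ha0
  set cM : FE E M := algebraMap E (FE E M) c with hcM
  set cN : FE E (M * q) := algebraMap E (FE E (M * q)) c with hcN
  have hcM0 : cM ≠ 0 := by
    rw [hcM, Ne, map_eq_zero]; exact hc
  have hcN0 : cN ≠ 0 := by
    rw [hcN, Ne, map_eq_zero]; exact hc
  have hvcM0 : VM.valuation cM ≠ 0 := (Valuation.ne_zero_iff _).mpr hcM0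
  have hvc : VM.valuation cM = VM.valuation (a i₀) := by
    rw [map_mul, map_inv₀] at hu
    calc VM.valuation cM = 1 * VM.valuation cM := (one_mul _).symm
      _ = VM.valuation (a i₀) * (VM.valuation cM)⁻¹ * VM.valuation cM := by rw [hu]
      _ = VM.valuation (a i₀) := by rw [mul_assoc, inv_mul_cancel₀ hvcM0, mul_one]
  -- the rescaled coefficients
  have hb : ∀ i, a i * cM⁻¹ ∈ VM := by
    intro i
    rw [← VM.valuation_le_one_iff, map_mul, map_inv₀]
    exact (mul_inv_le_iff₀ (zero_lt_iff.2 hvcM0)).2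
      (by rw [one_mul, hvc]; exact hmax i (Finset.mem_univ _))
  -- `c⁻¹ = w d`
  have hcMnot : cM ∉ VM := by
    rw [← VM.valuation_le_one_iff, hvc]; exact not_le.mpr h1
  have hcMinv : cM⁻¹ ∈ VM := (VM.mem_or_inv_mem cM).resolve_left hcMnot
  have hcR : c⁻¹ ∈ RE P E := by
    rw [← H708.algebraMap_mem_iff_of_isVinf hVM, map_inv₀]; exact hcMinv
  have hcnotR : c ∉ RE P E := fun h =>
    hcMnot ((H708.algebraMap_mem_iff_of_isVinf hVM c).mpr h)
  have hnu : ¬ IsUnit (⟨c⁻¹, hcR⟩ : RE P E) := by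
    intro hunit
    obtain ⟨d, hd⟩ := hunit.exists_right_inv
    apply hcnotR
    have h3 : c⁻¹ * (d : E) = 1 := congrArg Subtype.val hd
    have h4 : c = (d : E) := by
      have := inv_eq_of_mul_eq_one_right h3
      rw [inv_inv] at this
      exact this
    rw [h4]; exact d.2
  have hmem : (⟨c⁻¹, hcR⟩ : RE P E) ∈ IsLocalRing.maximalIdeal (RE P E) :=
    (IsLocalRing.mem_maximalIdeal _).mpr hnu
  rw [(IsDiscreteValuationRing.irreducible_iff_uniformizer w).mp hw,
    Ideal.mem_span_singleton] at hmem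
  obtain ⟨d, hd⟩ := hmem
  have hcd : c⁻¹ = (w : E) * (d : E) := congrArg Subtype.val hd
  have hw0 : (w : E) ≠ 0 := fun h => hw.ne_zero (Subtype.ext h)
  -- `f c⁻¹ ∈ w V`
  have hsum : ∑ i : Fin q, βE E M q (a i * cM⁻¹) * jE E (M * q) 1 (one_dvd _) ^ (i : ℕ)
      = f * cN⁻¹ := by
    rw [hfa, Finset.sum_mul]
    refine Finset.sum_congr rfl fun i _ => ?_
    rw [map_mul, map_inv₀, hcM, (βE E M q).commutes c]
    ring
  have hInW : InW P E (M * q) V w
      (∑ i : Fin q, βE E M q (a i * cM⁻¹) * jE E (M * q) 1 (one_dvd _) ^ (i : ℕ)) := by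
    rw [hsum]
    unfold InW
    have hcNinv : cN⁻¹ = cE P E (M * q) w * algebraMap E (FE E (M * q)) (d : E) := by
      rw [hcN, ← map_inv₀, hcd, map_mul]; rfl
    have hwN0 : cE P E (M * q) w ≠ 0 := by
      rw [cE, Ne, map_eq_zero]; exact hw0
    have : f * cN⁻¹ * (cE P E (M * q) w)⁻¹ = f * algebraMap E (FE E (M * q)) (d : E) := by
      rw [hcNinv]
      field_simp
    rw [this]
    exact V.mul_mem _ _ hf ((H708.algebraMap_mem_iff_of_isVinf hV _).mpr d.2)
  have hall := h83_beta_indep hdvr hw hVM hV (fun i => a i * cM⁻¹) hb hInW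
  have hbad := hall i₀
  unfold InW at hbad
  have hunif := (H708.vinfBasic P E w M (NeZero.ne M) hdvr hw VM hVM).1
  have hlt := hunif.val_lt_one
  have hv1 : VM.valuation (a i₀ * cM⁻¹ * (cE P E M w)⁻¹) ≤ 1 :=
    (VM.valuation_le_one_iff _).mpr hbad
  rw [map_mul, hu, one_mul, map_inv₀] at hv1
  have hv0 : VM.valuation (cE P E M w) ≠ 0 := hunif.val_ne_zero
  have : 1 ≤ VM.valuation (cE P E M w) := by
    have := (inv_le_one₀ (zero_lt_iff.2 hv0)).mp hv1
    exact this
  exact absurd hlt (not_lt.mpr this)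

end BetaVal

end Fermat.Agent.S36.H83

end
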