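/-
S36 engine, MOD-3 (helper83): `V∞_{Mq}` is the ONLY valuation ring of `F_{Mq}` over `β(V∞_M)`
when `q ∣ M`, and its residue extension is purely inseparable of degree `q`.

* `h83_j_mem_of_beta_mem` : `j` is integral over `β(V∞_M)`;
* `h83_beta_unique`       : a valuation subring `V'` of `F_{Mq}` with `β f ∈ V' ↔ f ∈ V∞_M` is `V∞_{Mq}`;
* `h83_beta_insep`        : for `f ∈ V∞_{Mq}` there is `g ∈ V∞_M` with `f^q ≡ β g mod w V∞_{Mq}`.
-/
import Fermat.Agent.S36.H83.BetaVal
import Fermat.Agent.A2.H48.TwoExt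

set_option autoImplicit false
set_option linter.unusedSectionVars false
set_option linter.style.haveILetI false
set_option synthInstance.maxHeartbeats 400000
set_option maxHeartbeats 1600000

noncomputable section

namespace Fermat.Agent.S36.H83

open ModularCurve Fermat.Agent.A2 Fermat.Agent.A2.Mod

section BetaUniq

variable {P : ValuationSubring Qb} {E : IntermediateField ℚ Qb} {M q : ℕ} [NeZero M] [NeZero q]

/-- polynomials with integer coefficients in an element of a valuation subring stay inside. -/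
theorem h83_aeval_mem {F : Type*} [Field F] (V : ValuationSubring F) {x : F} (hx : x ∈ V)
    (c : Polynomial ℤ) : Polynomial.aeval x c ∈ V := by
  induction c using Polynomial.induction_on' with
  | add c d hc hd => rw [map_add]; exact V.add_mem _ _ hc hd
  | monomial n a =>
    rw [Polynomial.aeval_monomial, eq_intCast]
    exact V.mul_mem _ _ (intCast_mem V a) (pow_mem hx n)

theorem h83_coe_comp_aeval {N : ℕ} (y : FE E N) :
    (algebraMap (FE E N) (LaurentSeries E)).comp (Polynomial.aeval (R := ℤ) y).toRingHom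
      = Fermat.Agent.S28.evalAt (y : LaurentSeries E) := by
  apply Polynomial.ringHom_ext
  · intro a
    simp [Fermat.Agent.S28.evalAt]
  · simp [Fermat.Agent.S28.evalAt]

theorem h83_beta_jE :
    βE E M q (jE E M 1 (one_dvd _)) = jE E (M * q) q (dvd_mul_left q M) := by
  apply Subtype.ext
  rw [coe_heckeBetaBar, h83_coe_jE, h83_coe_jE, qExpand_one_apply]

/-- `j` lies in every valuation subring of `F_{Mq}` containing `β(V∞_M)`. -/
theorem h83_j_mem_of_beta_mem (hq : q.Prime) {VM : ValuationSubring (FE E M)}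
    (hVM : IsVinf P E M VM) (V' : ValuationSubring (FE E (M * q)))
    (hV' : ∀ f : FE E M, f ∈ VM → βE E M q f ∈ V') :
    jE E (M * q) 1 (one_dvd _) ∈ V' := by
  obtain ⟨Φ⟩ := Fermat.Agent.S28.H807.nonempty_modPolyData q hq
  have hjM : jE E M 1 (one_dvd _) ∈ VM :=
    H708.mem_of_isVinf_of_incl hVM _ (H708.coe_jE_eq M 1 (one_dvd _))
  have hjq : jE E (M * q) q (dvd_mul_left q M) ∈ V' := by
    rw [← h83_beta_jE]
    exact hV' _ hjM
  set φ : Polynomial ℤ →+* FE E (M * q) :=
    (Polynomial.aeval (R := ℤ) (jE E (M * q) q (dvd_mul_left q M))).toRingHom with hφ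
  refine H48.mem_of_monic_root V' (Φ.monic.map φ) (fun i => ?_) ?_
  · rw [Polynomial.coeff_map]
    exact h83_aeval_mem V' hjq _
  · rw [Polynomial.eval_map]
    apply Subtype.ext
    have h := Polynomial.hom_eval₂ Φ.Φ φ (algebraMap (FE E (M * q)) (LaurentSeries E))
      (jE E (M * q) 1 (one_dvd _))
    have h2 : ((Polynomial.eval₂ φ (jE E (M * q) 1 (one_dvd _)) Φ.Φ : FE E (M * q)) :
        LaurentSeries E) = Polynomial.eval₂
          ((algebraMap (FE E (M * q)) (LaurentSeries E)).comp φ)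
          ((jE E (M * q) 1 (one_dvd _) : FE E (M * q)) : LaurentSeries E) Φ.Φ := h
    rw [h2, hφ, h83_coe_comp_aeval, h83_coe_jE, h83_coe_jE, qExpand_one_apply]
    exact Fermat.Agent.S28.h88_modPoly_eval_j E q Φ

/-- **Uniqueness**: for `q ∣ M`, `V∞_{Mq}` is the only valuation subring of `F_{Mq}` lying over
`β(V∞_M)`. -/
theorem h83_beta_unique (hdvr : IsDiscreteValuationRing (RE P E)) {w : RE P E}
    (hw : Irreducible w) (hq : q.Prime) (hqM : q ∣ M)
    {VM : ValuationSubring (FE E M)} {V : ValuationSubring (FE E (M * q))}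
    (hVM : IsVinf P E M VM) (hV : IsVinf P E (M * q) V)
    (V' : ValuationSubring (FE E (M * q)))
    (hV' : ∀ f : FE E M, βE E M q f ∈ V' ↔ f ∈ VM) : V' = V := by
  have := hdvr
  have hj : jE E (M * q) 1 (one_dvd _) ∈ V' :=
    h83_j_mem_of_beta_mem hq hVM V' (fun f hf => (hV' f).mpr hf)
  have hle : V ≤ V' := by
    intro f hf
    obtain ⟨a, ha, hfa⟩ := h83_beta_integral_basis hdvr hw hq hqM hVM hV hf
    rw [hfa]
    exact sum_mem fun i _ => V'.mul_mem _ _ ((hV' _).mpr (ha i)) (pow_mem hj _)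
  apply le_antisymm _ hle
  intro f hf
  by_contra hfV
  have hunifN := (H708.vinfBasic P E w (M * q) (NeZero.ne _) hdvr hw V hV).1
  have hunifM := (H708.vinfBasic P E w M (NeZero.ne _) hdvr hw VM hVM).1
  have hfinv : f⁻¹ ∈ V := (V.mem_or_inv_mem f).resolve_left hfV
  have h1 : f⁻¹ * (cE P E (M * q) w)⁻¹ ∈ V := hunifN.gen _ hfinv (by rwa [inv_inv])
  have hf0 : f ≠ 0 := by
    rintro rfl
    exact hfV V.zero_mem
  have h2 : (cE P E (M * q) w)⁻¹ ∈ V' := by
    have : (cE P E (M * q) w)⁻¹ = f * (f⁻¹ * (cE P E (M * q) w)⁻¹) := by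
      rw [← mul_assoc, mul_inv_cancel₀ hf0, one_mul]
    rw [this]
    exact V'.mul_mem _ _ hf (hle h1)
  have h3 : (cE P E (M * q) w)⁻¹ = βE E M q (cE P E M w)⁻¹ := by
    rw [map_inv₀]
    congr 1
    exact ((βE E M q).commutes (w : E)).symm
  rw [h3, hV'] at h2
  exact hunifM.inv_not_mem h2

/-! ### The residue extension is purely inseparable -/

/-- an element with an integral expansion of zero reduction lies in `w V∞`. -/
theorem h83_inW_of_red_eq_zero (hdvr : IsDiscreteValuationRing (RE P E)) {w : RE P E}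
    (hw : Irreducible w) {N : ℕ} {V : ValuationSubring (FE E N)} (hV : IsVinf P E N V)
    {x : FE E N} {S : LaurentSeries (RE P E)}
    (hx : (x : LaurentSeries E) = H708.incl (RE P E) S) (hS : H708.red (RE P E) S = 0) :
    InW P E N V w x := by
  have := hdvr
  obtain ⟨U', hU'⟩ := H96.exists_incl_eq_inv_mul (RE P E) hw hS
  unfold InW
  refine H708.mem_of_isVinf_of_incl hV U' ?_
  rw [hU', ← hx, IntermediateField.coe_mul, IntermediateField.coe_inv, H753.coe_cE]
  have hwE : H708.cst ((w : E))⁻¹ = (H708.cst (w : E))⁻¹ := map_inv₀ _ _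
  rw [hwE, mul_comm]

/-- `V∞` lies over `q`. -/
theorem h83_vinf_liesOver (hdvr : IsDiscreteValuationRing (RE P E))
    (hP : P.LiesOverPrime q) {N : ℕ} {V : ValuationSubring (FE E N)} (hV : IsVinf P E N V) :
    V.LiesOverPrime q := by
  have := hdvr
  have hR : (RE P E).LiesOverPrime q := H96.liesOver_RE P E hP
  have h1 : (RE P E).valuation ((q : ℕ) : E) < 1 := (ValuationSubring.mem_nonunits_iff _).mp hR
  show ((q : ℕ) : FE E N) ∈ V.nonunits
  rw [ValuationSubring.mem_nonunits_iff]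
  have hqE : ((q : ℕ) : FE E N) = algebraMap E (FE E N) ((q : ℕ) : E) := (map_natCast _ q).symm
  have hmem : ((q : ℕ) : E) ∈ RE P E := ((RE P E).valuation_le_one_iff _).mp h1.le
  have hle : V.valuation ((q : ℕ) : FE E N) ≤ 1 := by
    rw [V.valuation_le_one_iff, hqE]
    exact (H708.algebraMap_mem_iff_of_isVinf hV _).mpr hmem
  rcases lt_or_eq_of_le hle with h | h
  · exact h
  · exfalso
    have hinv : (((q : ℕ) : FE E N))⁻¹ ∈ V := by
      rw [← V.valuation_le_one_iff, map_inv₀, h, inv_one]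
    rw [hqE, ← map_inv₀, H708.algebraMap_mem_iff_of_isVinf hV] at hinv
    have h2 : (RE P E).valuation (((q : ℕ) : E))⁻¹ ≤ 1 := ((RE P E).valuation_le_one_iff _).mpr hinv
    rw [map_inv₀] at h2
    have hq0 : (RE P E).valuation ((q : ℕ) : E) ≠ 0 := by
      rw [Valuation.ne_zero_iff]
      exact Nat.cast_ne_zero.mpr (NeZero.ne q)
    have h3 : 1 ≤ (RE P E).valuation ((q : ℕ) : E) := (inv_le_one₀ (zero_lt_iff.2 hq0)).mp h2
    exact absurd h1 (not_lt.mpr h3)

/-- Frobenius congruence `j^q ≡ j_q mod w V∞`. -/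
theorem h83_inW_j_pow_sub (hdvr : IsDiscreteValuationRing (RE P E)) {w : RE P E}
    (hw : Irreducible w) (hq : q.Prime) (hP : P.LiesOverPrime q)
    {V : ValuationSubring (FE E (M * q))} (hV : IsVinf P E (M * q) V) :
    InW P E (M * q) V w
      (jE E (M * q) 1 (one_dvd _) ^ q - jE E (M * q) q (dvd_mul_left q M)) := by
  have := hdvr
  haveI : Fact q.Prime := ⟨hq⟩
  haveI : CharP (IsLocalRing.ResidueField (RE P E)) q :=
    Fermat.Agent.S18.H516.charP_residue (RE P E) (H96.liesOver_RE P E hP)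
  refine h83_inW_of_red_eq_zero hdvr hw hV
    (S := H708.castA (RE P E) (H708.jInt 1 ^ q - H708.jInt q)) ?_ ?_
  · rw [AddSubgroupClass.coe_sub, IntermediateField.coe_pow,
      H708.coe_jE_eq (P := P) (M * q) 1 (one_dvd _),
      H708.coe_jE_eq (P := P) (M * q) q (dvd_mul_left q M), map_sub, map_sub, map_pow, map_pow]
  · rw [H753.red_castA, map_sub, map_pow]
    have h1 : H708.jInt 1 = jqModC ℤ := jqNModC_one ℤ
    have h2 : H708.jInt q = qExpand ℤ q (jqModC ℤ) := rfl
    rw [h1, h2, H753.castL_qExpand_jqModC q hq, Fermat.Agent.S28.H325.castL_jqModC, sub_self]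

/-- **Purely inseparable residue extension**: for `q ∣ M` and `f ∈ V∞_{Mq}` there is
`g ∈ V∞_M` with `f^q ≡ β g mod w V∞_{Mq}`. -/
theorem h83_beta_insep (hdvr : IsDiscreteValuationRing (RE P E)) {w : RE P E}
    (hw : Irreducible w) (hq : q.Prime) (hqM : q ∣ M) (hP : P.LiesOverPrime q)
    {VM : ValuationSubring (FE E M)} {V : ValuationSubring (FE E (M * q))}
    (hVM : IsVinf P E M VM) (hV : IsVinf P E (M * q) V) {f : FE E (M * q)} (hf : f ∈ V) :
    ∃ g ∈ VM, InW P E (M * q) V w (f ^ q - βE E M q g) := by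
  classical
  have := hdvr
  haveI : Fact q.Prime := ⟨hq⟩
  obtain ⟨a, ha, hfa⟩ := h83_beta_integral_basis hdvr hw hq hqM hVM hV hf
  have hjM : jE E M 1 (one_dvd _) ∈ VM :=
    H708.mem_of_isVinf_of_incl hVM _ (H708.coe_jE_eq M 1 (one_dvd _))
  have hjN : jE E (M * q) 1 (one_dvd _) ∈ V :=
    H708.mem_of_isVinf_of_incl hV _ (H708.coe_jE_eq (M * q) 1 (one_dvd _))
  have hjq : jE E (M * q) q (dvd_mul_left q M) ∈ V :=
    H708.mem_of_isVinf_of_incl hV _ (H708.coe_jE_eq (M * q) q (dvd_mul_left q M))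
  have hβa : ∀ i, βE E M q (a i) ∈ V := fun i => h83_beta_mem hVM hV (ha i)
  set g : FE E M := ∑ i : Fin q, a i ^ q * jE E M 1 (one_dvd _) ^ (i : ℕ) with hg
  have hgV : g ∈ VM := sum_mem fun i _ => VM.mul_mem _ _ (pow_mem (ha i) q) (pow_mem hjM _)
  refine ⟨g, hgV, ?_⟩
  have hβg : βE E M q g
      = ∑ i : Fin q, βE E M q (a i) ^ q * jE E (M * q) q (dvd_mul_left q M) ^ (i : ℕ) := by
    rw [hg, map_sum]
    refine Finset.sum_congr rfl fun i _ => ?_
    rw [map_mul, map_pow, map_pow, h83_beta_jE]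
  -- the residue field of `V`
  haveI : CharP (IsLocalRing.ResidueField V) q :=
    Fermat.Agent.S18.H516.charP_residue V (h83_vinf_liesOver hdvr hP hV)
  set r := IsLocalRing.residue V with hr
  have hunif := (H708.vinfBasic P E w (M * q) (NeZero.ne _) hdvr hw V hV).1
  -- key congruence
  have hkey : r ⟨_, hjN⟩ ^ q = r ⟨_, hjq⟩ := by
    have h1 := h83_inW_j_pow_sub (M := M) hdvr hw hq hP hV
    unfold InW at h1
    have h2 : V.valuation (jE E (M * q) 1 (one_dvd _) ^ q
        - jE E (M * q) q (dvd_mul_left q M)) < 1 := hunif.mul_inv_mem_iff.mp h1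
    have h3 : (⟨_, hjN⟩ : V) ^ q - ⟨_, hjq⟩ ∈ IsLocalRing.maximalIdeal V := by
      rw [V.valuation_lt_one_iff]
      exact h2
    have h4 : r ((⟨_, hjN⟩ : V) ^ q - ⟨_, hjq⟩) = 0 :=
      (IsLocalRing.residue_eq_zero_iff _).mpr h3
    rw [map_sub, map_pow] at h4
    exact sub_eq_zero.mp h4
  have hfV : (⟨f, hf⟩ : V) = ∑ i : Fin q, ⟨_, hβa i⟩ * (⟨_, hjN⟩ : V) ^ (i : ℕ) := by
    apply Subtype.ext
    show f = _
    rw [hfa]
    push_cast
    rfl
  have hβgV : βE E M q g ∈ V := h83_beta_mem hVM hV hgV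
  have hgV' : (⟨_, hβgV⟩ : V) = ∑ i : Fin q, (⟨_, hβa i⟩ : V) ^ q * (⟨_, hjq⟩ : V) ^ (i : ℕ) := by
    apply Subtype.ext
    show βE E M q g = _
    rw [hβg]
    push_cast
    rfl
  have hzero : r ((⟨f, hf⟩ : V) ^ q - ⟨_, hβgV⟩) = 0 := by
    rw [map_sub, map_pow, hfV, hgV', map_sum, map_sum, sum_pow_char, sub_eq_zero]
    refine Finset.sum_congr rfl fun i _ => ?_
    rw [map_mul, map_mul, map_pow, map_pow, map_pow, mul_pow, ← hkey, ← pow_mul, ← pow_mul,
      mul_comm (i : ℕ) q]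
  have hmem := (IsLocalRing.residue_eq_zero_iff _).mp hzero
  rw [V.valuation_lt_one_iff] at hmem
  unfold InW
  exact hunif.mul_inv_mem_iff.mpr hmem

end BetaUniq

end Fermat.Agent.S36.H83

end
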