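/-
S36 engine, MOD-3 (helper83): the valuation `V₀ = V∞ ∘ W` (`= V_VV`) of level `M q`, `q ∣ M`,
over the `α`-structure (`α : F_M → F_{Mq}` the inclusion), by Fricke transport of `BetaUniq`.

With `W_M`, `W_N` the Fricke involutions of levels `M` and `N = M q`, `V₀_M = V∞_M ∘ W_M`,
`V₀_N = V∞_N ∘ W_N`, and `j_N = j(t^N) = W_N j`:

* `h83_alpha_mem_iff`        : `α f ∈ V₀_N ↔ f ∈ V₀_M`;
* `h83_alpha_integral_basis` : every `f ∈ V₀_N` is `∑_{i<q} α(b_i) j_N^i`, `b_i ∈ V₀_M`;
* `h83_alpha_unique`         : `V₀_N` is the only valuation subring of `F_N` over `α(V₀_M)`;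
* `h83_alpha_insep`          : `f ∈ V₀_N ⟹ ∃ g ∈ V₀_M, f^q ≡ α g mod w V₀_N`.
-/
import Fermat.Agent.S36.H83.BetaUniq
import Fermat.Agent.A2.Mod.H751.Fricke

set_option autoImplicit false
set_option linter.unusedSectionVars false
set_option linter.style.haveILetI false
set_option synthInstance.maxHeartbeats 400000
set_option maxHeartbeats 1600000

noncomputable section

namespace Fermat.Agent.S36.H83

open ModularCurve Fermat.Agent.A2 Fermat.Agent.A2.Mod

section AlphaVV

variable {P : ValuationSubring Qb} {E : IntermediateField ℚ Qb} {M q : ℕ} [NeZero M] [NeZero q]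

/-- `V₀ = V ∘ W`. -/
abbrev h83_comapW {N : ℕ} (V : ValuationSubring (FE E N)) (W : FE E N ≃ₐ[E] FE E N) :
    ValuationSubring (FE E N) :=
  V.comap (W : FE E N →+* FE E N)

theorem h83_mem_comapW {N : ℕ} (V : ValuationSubring (FE E N)) (W : FE E N ≃ₐ[E] FE E N)
    (f : FE E N) : f ∈ h83_comapW V W ↔ W f ∈ V := Iff.rfl

/-- `InW` for `V ∘ W`. -/
theorem h83_inW_comapW {N : ℕ} (V : ValuationSubring (FE E N)) (W : FE E N ≃ₐ[E] FE E N)
    (w : RE P E) (f : FE E N) :
    InW P E N (h83_comapW V W) w f ↔ InW P E N V w (W f) := by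
  unfold InW
  rw [h83_mem_comapW, map_mul, map_inv₀]
  have : W (cE P E N w) = cE P E N w := W.commutes (w : E)
  rw [this]

variable (WM : FE E M ≃ₐ[E] FE E M) (WN : FE E (M * q) ≃ₐ[E] FE E (M * q))

/-- **`V₀_N` lies over `α(V₀_M)`.** -/
theorem h83_alpha_mem_iff (hdvr : IsDiscreteValuationRing (RE P E))
    (hWM : IsFricke E M WM) (hWN : IsFricke E (M * q) WN)
    {VM : ValuationSubring (FE E M)} {V : ValuationSubring (FE E (M * q))}
    (hVM : IsVinf P E M VM) (hV : IsVinf P E (M * q) V) (f : FE E M) :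
    αE E M q f ∈ h83_comapW V WN ↔ f ∈ h83_comapW VM WM := by
  rw [h83_mem_comapW, h83_mem_comapW, (H751.frickeCompat E M q WM WN hWM hWN f).1]
  exact h83_beta_mem_iff hdvr hVM hV _

/-- **Integral power basis of `V₀_N` over `α(V₀_M)`**: `1, j_N, …, j_N^{q-1}`. -/
theorem h83_alpha_integral_basis (hdvr : IsDiscreteValuationRing (RE P E)) {w : RE P E}
    (hw : Irreducible w) (hq : q.Prime) (hqM : q ∣ M)
    (hWM : IsFricke E M WM) (hWN : IsFricke E (M * q) WN)
    {VM : ValuationSubring (FE E M)} {V : ValuationSubring (FE E (M * q))}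
    (hVM : IsVinf P E M VM) (hV : IsVinf P E (M * q) V) {f : FE E (M * q)}
    (hf : f ∈ h83_comapW V WN) :
    ∃ b : Fin q → FE E M, (∀ i, b i ∈ h83_comapW VM WM) ∧
      f = ∑ i : Fin q, αE E M q (b i) * jE E (M * q) (M * q) dvd_rfl ^ (i : ℕ) := by
  have hf' : WN f ∈ V := (h83_mem_comapW V WN f).mp hf
  obtain ⟨a, ha, hfa⟩ := h83_beta_integral_basis hdvr hw hq hqM hVM hV hf'
  refine ⟨fun i => WM (a i), fun i => ?_, ?_⟩
  · rw [h83_mem_comapW, hWM.2]
    exact ha i
  · have h1 := congrArg WN hfa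
    rw [hWN.2, map_sum] at h1
    rw [h1]
    refine Finset.sum_congr rfl fun i _ => ?_
    rw [map_mul, map_pow, (H751.frickeCompat E M q WM WN hWM hWN (a i)).2,
      hWN.1 1 (M * q) (one_dvd _) dvd_rfl (one_mul _)]

/-- **Uniqueness**: for `q ∣ M`, `V₀_N` is the only valuation subring of `F_N` lying over
`α(V₀_M)`. -/
theorem h83_alpha_unique (hdvr : IsDiscreteValuationRing (RE P E)) {w : RE P E}
    (hw : Irreducible w) (hq : q.Prime) (hqM : q ∣ M)
    (hWM : IsFricke E M WM) (hWN : IsFricke E (M * q) WN)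
    {VM : ValuationSubring (FE E M)} {V : ValuationSubring (FE E (M * q))}
    (hVM : IsVinf P E M VM) (hV : IsVinf P E (M * q) V)
    (V' : ValuationSubring (FE E (M * q)))
    (hV' : ∀ f : FE E M, αE E M q f ∈ V' ↔ f ∈ h83_comapW VM WM) :
    V' = h83_comapW V WN := by
  have key : h83_comapW V' WN = V := by
    apply h83_beta_unique hdvr hw hq hqM hVM hV
    intro f
    rw [h83_mem_comapW, (H751.frickeCompat E M q WM WN hWM hWN f).2, hV', h83_mem_comapW,
      hWM.2]
  ext x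
  rw [h83_mem_comapW, ← key, h83_mem_comapW, hWN.2]

/-- **Purely inseparable residue extension** of `V₀_N` over `α(V₀_M)`. -/
theorem h83_alpha_insep (hdvr : IsDiscreteValuationRing (RE P E)) {w : RE P E}
    (hw : Irreducible w) (hq : q.Prime) (hqM : q ∣ M) (hP : P.LiesOverPrime q)
    (hWM : IsFricke E M WM) (hWN : IsFricke E (M * q) WN)
    {VM : ValuationSubring (FE E M)} {V : ValuationSubring (FE E (M * q))}
    (hVM : IsVinf P E M VM) (hV : IsVinf P E (M * q) V) {f : FE E (M * q)}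
    (hf : f ∈ h83_comapW V WN) :
    ∃ g ∈ h83_comapW VM WM, InW P E (M * q) (h83_comapW V WN) w (f ^ q - αE E M q g) := by
  have hf' : WN f ∈ V := (h83_mem_comapW V WN f).mp hf
  obtain ⟨g, hg, hInW⟩ := h83_beta_insep hdvr hw hq hqM hP hVM hV hf'
  refine ⟨WM g, ?_, ?_⟩
  · rw [h83_mem_comapW, hWM.2]
    exact hg
  · rw [h83_inW_comapW, map_sub, map_pow, (H751.frickeCompat E M q WM WN hWM hWN (WM g)).1,
      hWM.2]
    exact hInW

end AlphaVV

end Fermat.Agent.S36.H83

end
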