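/-
S36 engine, MOD-3 (helper83): the degree of the `β`-structure at a level divisible by `ℓ`.

`L` a field of characteristic `0`, `E_M = L(j(q^d) : d ∣ M) ⊂ L((q))`, `V = (q ↦ q^ℓ)`.

* `h83_relfinrank_map_full` : `[E_{Nℓ} : V(E_N)] = ℓ` if `ℓ ∣ N`, `= ℓ + 1` otherwise;
* `h83_exists_beta_expansion` : for `ℓ ∣ N` every element of `E_{Nℓ}` is
  `∑_{i<ℓ} V(a_i) j^i` with `a_i ∈ E_N`  (`1, j, …, j^{ℓ-1}` is a basis of `E_{Nℓ}` over `V(E_N)`).
-/
import Fermat.Agent.S37.H988.BetaDeg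
import Fermat.Agent.S28.H88.Degree

set_option autoImplicit false
set_option linter.unusedSectionVars false
set_option linter.style.haveILetI false

noncomputable section

open ModularCurve IntermediateField Polynomial

namespace Fermat.Agent.S36.H83

open Fermat.Agent.S28.H988 Fermat.Agent.S37.H988

section Degree

variable (L : Type*) [Field L] [CharZero L] {ℓ : ℕ}

/-- **Degree of the `β`-structure**, any level:
`[E_{Nℓ} : V(E_N)] = ℓ` if `ℓ ∣ N`, `ℓ + 1` if `ℓ ∤ N`. -/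
theorem h83_relfinrank_map_full (hℓ : ℓ.Prime) {N : ℕ} (hN : N ≠ 0) :
    ((modularFunctionFieldFullC L N).map (VAlg L ℓ)).relfinrank
      (modularFunctionFieldFullC L (N * ℓ)) = if ℓ ∣ N then ℓ else ℓ + 1 := by
  have hℓ0 : ℓ ≠ 0 := hℓ.ne_zero
  have hNℓ : N * ℓ ≠ 0 := Nat.mul_ne_zero hN hℓ0
  have h1ℓ : 1 * ℓ ≠ 0 := Nat.mul_ne_zero one_ne_zero hℓ0
  have hchar : ∀ (M : ℕ) (r : ℕ), r.Prime → r ∣ M → (r : L) ≠ 0 :=
    fun _ r hr _ => natCast_prime_ne_zero L r hr
  have hℓ1 : ¬ ℓ ∣ 1 := by simpa using hℓ.one_lt.ne'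
  set J := modularFunctionFieldFullC L 1 with hJ
  set Jl := J.map (VAlg L ℓ) with hJl
  set El := modularFunctionFieldFullC L (1 * ℓ) with hEl
  set K0 := (modularFunctionFieldFullC L N).map (VAlg L ℓ) with hK0
  set K1 := modularFunctionFieldFullC L (N * ℓ) with hK1
  have hJeq : J = Fermat.Agent.S28.jField L := full_one L
  -- inclusions
  have i1 : J ≤ El := full_mono L h1ℓ (one_dvd _)
  have i2 : El ≤ K1 := full_mono L hNℓ (Nat.mul_dvd_mul_right (one_dvd N) ℓ)
  have i3 : Jl ≤ El := map_full_le L (N := 1) one_ne_zero hℓ0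
  have i4 : Jl ≤ K0 := IntermediateField.map_mono _ (full_mono L hN (one_dvd N))
  have i5 : K0 ≤ K1 := map_full_le L hN hℓ0
  -- degrees
  have d1 : J.relfinrank El = ℓ + 1 := by
    rw [hJ, hEl, relfinrank_full_mul_prime L 1 ℓ one_ne_zero hℓ (hchar _), if_neg hℓ1]
  have d2 : J.relfinrank K1 = dedekindPsi (N * ℓ) := by
    rw [hJeq, relfinrank_jField_full_eq L (N * ℓ) hNℓ (hchar _)]
  have d3 : (ℓ + 1) * El.relfinrank K1 = dedekindPsi (N * ℓ) := by
    rw [← d1, ← d2]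
    exact relfinrank_mul_relfinrank i1 i2
  have d4 : Jl.relfinrank El = ℓ + 1 := relfinrank_map_full L hℓ one_ne_zero hℓ1
  have d5 : Jl.relfinrank K0 = dedekindPsi N := by
    rw [hJl, hK0, relfinrank_map_map, hJeq, relfinrank_jField_full_eq L N hN (hchar N)]
  have d6 : Jl.relfinrank K1 = dedekindPsi (N * ℓ) := by
    rw [← relfinrank_mul_relfinrank i3 i2, d4, d3]
  have h := relfinrank_mul_relfinrank i4 i5
  rw [d5, d6] at h
  have hpos := dedekindPsi_pos N hN
  by_cases hℓN : ℓ ∣ N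
  · rw [if_pos hℓN]
    rw [Fermat.Agent.S28.H626.psi_mul_prime_of_dvd hN hℓ hℓN, mul_comm ℓ] at h
    exact Nat.eq_of_mul_eq_mul_left hpos h
  · rw [if_neg hℓN]
    rw [Fermat.Agent.S28.H626.psi_mul_prime_of_not_dvd hN hℓ hℓN, mul_comm (ℓ + 1)] at h
    exact Nat.eq_of_mul_eq_mul_left hpos h

omit [CharZero L] in
/-- `1, j, …, j^{ℓ-1}` are linearly independent over `V(L((q)))`, `Fin`-indexed form. -/
theorem h83_linIndep_fin [NeZero ℓ] (a : Fin ℓ → LaurentSeries L)
    (h : ∑ i : Fin ℓ, qExpand L ℓ (a i) * jqModC L ^ (i : ℕ) = 0) : ∀ i, a i = 0 := by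
  classical
  set c : ℕ → LaurentSeries L := fun i => if hi : i < ℓ then a ⟨i, hi⟩ else 0 with hc
  have hsum : ∑ i ∈ Finset.range ℓ, qExpand L ℓ (c i) * jqModC L ^ i = 0 := by
    rw [← h, ← Fin.sum_univ_eq_sum_range (fun i => qExpand L ℓ (c i) * jqModC L ^ i) ℓ]
    refine Finset.sum_congr rfl fun i _ => ?_
    simp only [hc, dif_pos i.2, Fin.eta]
  have h0 := Fermat.Agent.S28.h88_linIndep_core L ℓ c hsum
  intro i
  have := h0 i (Finset.mem_range.mpr i.2)
  simpa only [hc, dif_pos i.2, Fin.eta] using this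

/-- **Power basis of the `β`-structure**: for `ℓ ∣ N` every element of `E_{Nℓ}` is
`∑_{i<ℓ} V(a_i) j^i` with `a_i ∈ E_N`. -/
theorem h83_exists_beta_expansion [NeZero ℓ] (hℓ : ℓ.Prime) {N : ℕ} (hN : N ≠ 0) (hℓN : ℓ ∣ N)
    {f : LaurentSeries L} (hf : f ∈ modularFunctionFieldFullC L (N * ℓ)) :
    ∃ a : Fin ℓ → LaurentSeries L, (∀ i, a i ∈ modularFunctionFieldFullC L N) ∧
      f = ∑ i : Fin ℓ, qExpand L ℓ (a i) * jqModC L ^ (i : ℕ) := by
  classical
  have hℓ0 : ℓ ≠ 0 := hℓ.ne_zero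
  have hNℓ : N * ℓ ≠ 0 := Nat.mul_ne_zero hN hℓ0
  set K0 := (modularFunctionFieldFullC L N).map (VAlg L ℓ) with hK0
  set K1 := modularFunctionFieldFullC L (N * ℓ) with hK1
  have i5 : K0 ≤ K1 := map_full_le L hN hℓ0
  have hdeg : K0.relfinrank K1 = ℓ := by
    rw [hK0, hK1, h83_relfinrank_map_full L hℓ hN, if_pos hℓN]
  rw [relfinrank_eq_finrank_of_le i5] at hdeg
  -- the family `j^i`
  have hj : jqModC L ∈ K1 := by
    have := jd_mem_full L hNℓ (one_dvd (N * ℓ))
    rwa [jd_one] at this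
  set v : Fin ℓ → LaurentSeries L := fun i => jqModC L ^ (i : ℕ) with hv
  have hli : LinearIndependent K0 v := by
    rw [Fintype.linearIndependent_iff]
    intro g hg i
    have hmem : ∀ i, ∃ b ∈ modularFunctionFieldFullC L N, VAlg L ℓ b = (g i : LaurentSeries L) :=
      fun i => (IntermediateField.mem_map _).mp (g i).2
    choose b hb hbg using hmem
    have hsum : ∑ i : Fin ℓ, qExpand L ℓ (b i) * jqModC L ^ (i : ℕ) = 0 := by
      rw [← hg]
      refine Finset.sum_congr rfl fun i _ => ?_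
      rw [IntermediateField.smul_def, smul_eq_mul, ← hbg i, VAlg_apply, Vm_eq]
    have h0 := h83_linIndep_fin L b hsum i
    apply Subtype.ext
    rw [← hbg i, h0, map_zero]
    rfl
  -- the span is everything
  set W : Submodule K0 (LaurentSeries L) := Submodule.span K0 (Set.range v) with hW
  set T : Submodule K0 (LaurentSeries L) :=
    (extendScalars i5).toSubalgebra.toSubmodule with hT
  have hWT : W ≤ T := by
    rw [hW, Submodule.span_le]
    rintro x ⟨i, rfl⟩
    show jqModC L ^ (i : ℕ) ∈ K1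
    exact pow_mem hj _
  have hfinT : Module.finrank K0 T = ℓ := hdeg
  have hfinW : Module.finrank K0 W = ℓ := by
    rw [hW, finrank_span_eq_card hli, Fintype.card_fin]
  haveI : Module.Finite K0 T := Module.finite_of_finrank_pos (by
    rw [hfinT]; exact Nat.pos_of_ne_zero hℓ0)
  have hEq : W = T := Submodule.eq_of_le_of_finrank_eq hWT (by rw [hfinW, hfinT])
  have hfT : f ∈ T := hf
  rw [← hEq, hW, Submodule.mem_span_range_iff_exists_fun] at hfT
  obtain ⟨g, hg⟩ := hfT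
  have hmem : ∀ i, ∃ b ∈ modularFunctionFieldFullC L N, VAlg L ℓ b = (g i : LaurentSeries L) :=
    fun i => (IntermediateField.mem_map _).mp (g i).2
  choose b hb hbg using hmem
  refine ⟨b, hb, ?_⟩
  rw [← hg]
  refine Finset.sum_congr rfl fun i _ => ?_
  rw [IntermediateField.smul_def, smul_eq_mul, ← hbg i, VAlg_apply, Vm_eq]

end Degree

end Fermat.Agent.S36.H83

end
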