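/-
S36 engine, MOD-3 leaf "EIS" (helper83), part 1: the bivariate chain rule for
`θ = q d/dq` on `A((q))`:  `θ (F(x, y)) = F_X(x, y) θ x + F_Y(x, y) θ y`, `F ∈ ℤ[Y][X]`.
-/
import Fermat.Agent.S28.H88.Kronecker

set_option autoImplicit false

noncomputable section

open ModularCurve HahnSeries Polynomial

namespace Fermat.Agent.S36.H83

open Fermat.Agent.S28

section ChainRule

variable {A : Type*} [CommRing A]

theorem h83_thetaL_intCast (c : ℤ) : thetaL A ((c : ℤ) : LaurentSeries A) = 0 := by
  have hc : ((c : ℤ) : LaurentSeries A) = HahnSeries.C (c : A) :=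
    (map_intCast (HahnSeries.C : A →+* LaurentSeries A) c).symm
  rw [hc, h88_thetaL_C]

theorem h83_thetaL_pow (f : LaurentSeries A) (n : ℕ) :
    thetaL A (f ^ n) = (n : LaurentSeries A) * f ^ (n - 1) * thetaL A f := by
  cases n with
  | zero => simp [h88_thetaL_one]
  | succ n => rw [h88_thetaL_pow, Nat.add_sub_cancel]

theorem h83_evalAt_monomial (y : LaurentSeries A) (n : ℕ) (a : ℤ) :
    evalAt y (Polynomial.monomial n a) = (a : LaurentSeries A) * y ^ n := by
  show Polynomial.aeval y (Polynomial.monomial n a) = _
  rw [Polynomial.aeval_monomial, eq_intCast]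

theorem h83_evalAt_eq_eval₂ (y : LaurentSeries A) (c : Polynomial ℤ) :
    evalAt y c = c.eval₂ (Int.castRingHom (LaurentSeries A)) y := by
  show Polynomial.aeval y c = _
  rw [Polynomial.aeval_def]
  congr 1
  exact RingHom.ext_int _ _

/-- One-variable chain rule: `θ (c(y)) = c'(y) θ y` for `c ∈ ℤ[Y]`. -/
theorem h83_thetaL_evalAt (c : Polynomial ℤ) (y : LaurentSeries A) :
    thetaL A (evalAt y c) = evalAt y (Polynomial.derivative c) * thetaL A y := by
  induction c using Polynomial.induction_on' with
  | add c d hc hd =>
    rw [map_add, h88_thetaL_add, hc, hd, Polynomial.derivative_add, map_add, add_mul]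
  | monomial n a =>
    rw [h83_evalAt_monomial, Polynomial.derivative_monomial, h83_evalAt_monomial,
      h88_thetaL_mul, h83_thetaL_intCast, zero_mul, zero_add, h83_thetaL_pow]
    push_cast
    ring

/-- **Bivariate chain rule** for `θ`:
`θ (F(x,y)) = (∂F/∂X)(x,y) · θ x + (∂F/∂Y)(x,y) · θ y`, where the two partial derivatives are
expressed through the one-variable specialisations `F(X, y) ∈ L[X]` and `F(x, Y) ∈ L[Y]`. -/
theorem h83_chain_rule (F : Polynomial (Polynomial ℤ)) (x y : LaurentSeries A) :
    thetaL A (F.eval₂ (evalAt y) x) =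
      (Polynomial.derivative (F.map (evalAt y))).eval x * thetaL A x
      + (Polynomial.derivative
          (F.eval₂ (Polynomial.mapRingHom (Int.castRingHom (LaurentSeries A)))
            (Polynomial.C x))).eval y * thetaL A y := by
  induction F using Polynomial.induction_on' with
  | add F G hF hG =>
    rw [Polynomial.eval₂_add, h88_thetaL_add, hF, hG, Polynomial.map_add,
      Polynomial.derivative_add, Polynomial.eval_add, Polynomial.eval₂_add,
      Polynomial.derivative_add, Polynomial.eval_add]
    ring
  | monomial n c =>
    have h2 : (Polynomial.derivative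
        ((Polynomial.mapRingHom (Int.castRingHom (LaurentSeries A))) c)).eval y
        = evalAt y (Polynomial.derivative c) := by
      rw [Polynomial.coe_mapRingHom, Polynomial.derivative_map, Polynomial.eval_map,
        h83_evalAt_eq_eval₂]
    rw [Polynomial.eval₂_monomial, Polynomial.map_monomial, Polynomial.derivative_monomial,
      Polynomial.eval_monomial, Polynomial.eval₂_monomial, ← Polynomial.C_pow,
      Polynomial.derivative_mul, Polynomial.derivative_C, mul_zero, add_zero,
      Polynomial.eval_mul, Polynomial.eval_C, h2, h88_thetaL_mul, h83_thetaL_pow,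
      h83_thetaL_evalAt]
    ring

end ChainRule

end Fermat.Agent.S36.H83

end
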