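/-
S36 engine, MOD-3 leaf "EIS" (helper83), part 2.

Formal `q`-series input for the three valuations of `X₀(p²)` above the Gauss valuation.
With `j = j(q)`, `j_p = j(q^p)`, `j_{pp} = j(q^{p²})` in `ℤ((q))` and `Φ = Φ_p ∈ ℤ[Y][X]`:

* `P(X) := Φ(X, j_p) ∈ ℤ((q))[X]` is monic of degree `p + 1` with roots `j` and `j_{pp}`;
* `P ≡ (X - j)^p (X - j^{p²}) mod p`;
* `Ψ := P / (X - j)` (the minimal polynomial of `j_{pp}` over `ℚ(j, j_p)`) satisfies
  `Ψ ≡ (X - j)^{p-1} (X - j^{p²}) mod p` and is **Eisenstein at `j`**: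
  `Ψ(j) = p · U` with `U mod p ≠ 0`   (more precisely `U θj ≡ (j - j^{p²}) (θ j)^p`);
* `Ψ_B := P / (X - j_{pp})` (the minimal polynomial of `j` over `ℚ(j_p, j_{pp})`) satisfies
  `Ψ_B ≡ (X - j)^p = X^p - j^p mod p`   (purely inseparable).
-/
import Fermat.Agent.S36.H83.EisChain

set_option autoImplicit false

noncomputable section

open ModularCurve Polynomial

namespace Fermat.Agent.S36.H83

open Fermat.Agent.S28

/-! ### `θ j` is a unit of `ℤ((q))` -/

section ThetaJ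

variable (A : Type*) [CommRing A]

theorem h83_thetaL_jqModC_coeff_neg_one : (thetaL A (jqModC A)).coeff (-1) = -1 := by
  rw [thetaL_coeff, coeff_jqModC_neg_one]
  simp

theorem h83_thetaL_jqModC_coeff_of_lt {n : ℤ} (hn : n < -1) :
    (thetaL A (jqModC A)).coeff n = 0 := by
  rw [thetaL_coeff, coeff_jqModC_of_lt A hn, mul_zero]

theorem h83_thetaL_jqModC_ne_zero [Nontrivial A] : thetaL A (jqModC A) ≠ 0 := by
  intro h
  have h1 := h83_thetaL_jqModC_coeff_neg_one A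
  rw [h, HahnSeries.coeff_zero] at h1
  exact (neg_ne_zero.mpr (one_ne_zero (α := A))) h1.symm

theorem h83_order_thetaL_jqModC [Nontrivial A] : (thetaL A (jqModC A)).order = -1 := by
  have hne := h83_thetaL_jqModC_ne_zero A
  apply le_antisymm
  · apply HahnSeries.order_le_of_coeff_ne_zero
    rw [h83_thetaL_jqModC_coeff_neg_one]
    exact neg_ne_zero.mpr one_ne_zero
  · by_contra h
    rw [not_le] at h
    exact (HahnSeries.coeff_order_eq_zero.not.mpr hne) (h83_thetaL_jqModC_coeff_of_lt A h)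

theorem h83_isUnit_thetaL_jqModC [IsDomain A] : IsUnit (thetaL A (jqModC A)) := by
  rw [HahnSeries.isUnit_iff, HahnSeries.leadingCoeff_eq, h83_order_thetaL_jqModC,
    h83_thetaL_jqModC_coeff_neg_one]
  exact isUnit_one.neg

end ThetaJ

/-! ### The Kronecker congruence, specialised in either variable -/

section KroneckerSpec

variable (p : ℕ) [hp : Fact p.Prime] [NeZero p] (Φ : ModPolyData p)

/-- `Φ̄(X, y) = (X^p - y)(X - y^p)` over `𝔽_p((q))`. -/
theorem h83_map_evalAt_zmod (y : LaurentSeries (ZMod p)) :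
    Φ.Φ.map (evalAt y) = (X ^ p - C y) * (X - C (y ^ p)) := by
  rw [← h88_aeval_comp_mapRingHom (ZMod p) y, ← Polynomial.map_map,
    h88_kronecker_charP p (ZMod p) Φ]
  simp

/-- `Φ̄(x, Y) = (x^p - Y)(x - Y^p)` over `𝔽_p((q))`. -/
theorem h83_eval₂_C_zmod (x : LaurentSeries (ZMod p)) :
    Φ.Φ.eval₂ (Polynomial.mapRingHom (Int.castRingHom (LaurentSeries (ZMod p)))) (C x)
      = (C (x ^ p) - X) * (C x - X ^ p) := by
  have hcomp : Polynomial.mapRingHom (Int.castRingHom (LaurentSeries (ZMod p)))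
      = (Polynomial.mapRingHom (HahnSeries.C : ZMod p →+* LaurentSeries (ZMod p))).comp
          (Polynomial.mapRingHom (Int.castRingHom (ZMod p))) := by
    apply Polynomial.ringHom_ext
    · intro a
      simp
    · simp
  rw [hcomp, ← Polynomial.eval₂_map, h88_kronecker_charP p (ZMod p) Φ, Polynomial.eval₂_mul,
    Polynomial.eval₂_sub, Polynomial.eval₂_sub, Polynomial.eval₂_pow, Polynomial.eval₂_X,
    Polynomial.eval₂_C, Polynomial.eval₂_C, Polynomial.coe_mapRingHom, Polynomial.map_X,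
    Polynomial.map_pow, Polynomial.map_X, ← Polynomial.C_pow]

end KroneckerSpec

/-- Reduction of coefficients `ℤ((q)) → 𝔽_p((q))`. -/
abbrev h83_red (p : ℕ) : LaurentSeries ℤ →+* LaurentSeries (ZMod p) :=
  coeffMap (Int.castRingHom (ZMod p))

/-! ### The polynomial `P = Φ(X, j_p)` and its two cofactors -/

section Main

variable (p : ℕ) [hp : Fact p.Prime] [NeZero p] (Φ : ModPolyData p)

/-- `P(X) = Φ_p(X, j(q^p)) ∈ ℤ((q))[X]`. -/
def h83_eisP : Polynomial (LaurentSeries ℤ) :=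
  Φ.Φ.map (evalAt (qExpand ℤ p (jqModC ℤ)))

omit hp in
theorem h83_eisP_monic : (h83_eisP p Φ).Monic := Φ.monic.map _

omit hp in
theorem h83_eisP_natDegree : (h83_eisP p Φ).natDegree = p + 1 := by
  rw [h83_eisP, Φ.monic.natDegree_map, Φ.natDegree_eq]

omit hp in
theorem h83_eisP_eval_j : (h83_eisP p Φ).eval (jqModC ℤ) = 0 := by
  rw [h83_eisP, Polynomial.eval_map]
  exact Φ.eval_j

omit hp in
theorem h83_eisP_eval_jpp :
    (h83_eisP p Φ).eval (qExpand ℤ p (qExpand ℤ p (jqModC ℤ))) = 0 := by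
  rw [h83_eisP, Polynomial.eval_map]
  have h := congrArg (qExpand ℤ p) Φ.eval_jp
  rw [Polynomial.hom_eval₂, map_zero, h88_comp_evalAt] at h
  exact h

/-- `Ψ = P / (X - j)`: the polynomial satisfied by `j(q^{p²})` over `ℤ[j, j_p]`. -/
def h83_eisPsi : Polynomial (LaurentSeries ℤ) :=
  h83_eisP p Φ /ₘ (X - C (jqModC ℤ))

/-- `Ψ_B = P / (X - j_{pp})`: the polynomial satisfied by `j` over `ℤ[j_p, j_{pp}]`. -/
def h83_eisPsiB : Polynomial (LaurentSeries ℤ) :=
  h83_eisP p Φ /ₘ (X - C (qExpand ℤ p (qExpand ℤ p (jqModC ℤ))))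

omit hp in
theorem h83_eisP_eq_mul_eisPsi :
    h83_eisP p Φ = (X - C (jqModC ℤ)) * h83_eisPsi p Φ :=
  (Polynomial.mul_divByMonic_eq_iff_isRoot.mpr (h83_eisP_eval_j p Φ)).symm

omit hp in
theorem h83_eisP_eq_mul_eisPsiB :
    h83_eisP p Φ = (X - C (qExpand ℤ p (qExpand ℤ p (jqModC ℤ)))) * h83_eisPsiB p Φ :=
  (Polynomial.mul_divByMonic_eq_iff_isRoot.mpr (h83_eisP_eval_jpp p Φ)).symm

omit hp in
theorem h83_eisPsi_monic : (h83_eisPsi p Φ).Monic := by
  have h := h83_eisP_monic p Φ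
  rw [h83_eisP_eq_mul_eisPsi] at h
  exact (Polynomial.monic_X_sub_C _).of_mul_monic_left h

omit hp in
theorem h83_eisPsiB_monic : (h83_eisPsiB p Φ).Monic := by
  have h := h83_eisP_monic p Φ
  rw [h83_eisP_eq_mul_eisPsiB] at h
  exact (Polynomial.monic_X_sub_C _).of_mul_monic_left h

omit hp in
theorem h83_eisPsi_natDegree : (h83_eisPsi p Φ).natDegree = p := by
  rw [h83_eisPsi, Polynomial.natDegree_divByMonic _ (Polynomial.monic_X_sub_C _),
    h83_eisP_natDegree, Polynomial.natDegree_X_sub_C, Nat.add_sub_cancel]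

omit hp in
theorem h83_eisPsiB_natDegree : (h83_eisPsiB p Φ).natDegree = p := by
  rw [h83_eisPsiB, Polynomial.natDegree_divByMonic _ (Polynomial.monic_X_sub_C _),
    h83_eisP_natDegree, Polynomial.natDegree_X_sub_C, Nat.add_sub_cancel]

/-- `j ≠ j(q^{p²})` in `ℤ((q))`. -/
theorem h83_j_ne_jpp : jqModC ℤ ≠ qExpand ℤ p (qExpand ℤ p (jqModC ℤ)) := by
  intro h
  have h1 := coeff_jqModC_neg_one ℤ
  rw [h, qExpand_coeff_of_not_dvd p _] at h1
  · exact zero_ne_one h1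
  · intro hdvd
    have h2 : (p : ℤ) ∣ 1 := (dvd_neg).mp hdvd
    have h3 := Int.le_of_dvd (by norm_num) h2
    have h4 : (1 : ℤ) < p := by exact_mod_cast hp.out.one_lt
    omega

/-- `Ψ(j_{pp}) = 0`. -/
theorem h83_eisPsi_eval_jpp :
    (h83_eisPsi p Φ).eval (qExpand ℤ p (qExpand ℤ p (jqModC ℤ))) = 0 := by
  have h := h83_eisP_eval_jpp p Φ
  rw [h83_eisP_eq_mul_eisPsi, Polynomial.eval_mul, Polynomial.eval_sub, Polynomial.eval_X,
    Polynomial.eval_C] at h
  rcases mul_eq_zero.mp h with h0 | h0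
  · exact absurd (sub_eq_zero.mp h0).symm (h83_j_ne_jpp p)
  · exact h0

/-- `Ψ_B(j) = 0`. -/
theorem h83_eisPsiB_eval_j : (h83_eisPsiB p Φ).eval (jqModC ℤ) = 0 := by
  have h := h83_eisP_eval_j p Φ
  rw [h83_eisP_eq_mul_eisPsiB, Polynomial.eval_mul, Polynomial.eval_sub, Polynomial.eval_X,
    Polynomial.eval_C] at h
  rcases mul_eq_zero.mp h with h0 | h0
  · exact absurd (sub_eq_zero.mp h0) (h83_j_ne_jpp p)
  · exact h0

/-! ### Reduction modulo `p` -/

omit hp [NeZero p] in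
theorem h83_red_j : h83_red p (jqModC ℤ) = jqModC (ZMod p) := coeffMap_jqModC _

theorem h83_red_jp : h83_red p (qExpand ℤ p (jqModC ℤ)) = jqModC (ZMod p) ^ p := by
  rw [h83_red, coeffMap_qExpand, coeffMap_jqModC, h88_qExpand_zmod]

theorem h83_red_jpp :
    h83_red p (qExpand ℤ p (qExpand ℤ p (jqModC ℤ))) = jqModC (ZMod p) ^ (p ^ 2) := by
  rw [h83_red, coeffMap_qExpand, coeffMap_qExpand, coeffMap_jqModC, h88_qExpand_zmod,
    h88_qExpand_zmod, ← pow_mul, pow_two]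

/-- `j̄ ≠ j̄^{p²}` in `𝔽_p((q))`. -/
theorem h83_jbar_ne_pow : jqModC (ZMod p) ≠ jqModC (ZMod p) ^ (p ^ 2) := by
  rw [pow_two, pow_mul, ← h88_qExpand_zmod p (jqModC (ZMod p) ^ p)]
  exact h88_jqModC_ne_qExpand (ZMod p) p hp.out.one_lt _

/-- `P ≡ (X - j)^p (X - j^{p²}) mod p`. -/
theorem h83_eisP_map_red :
    (h83_eisP p Φ).map (h83_red p)
      = (X - C (jqModC (ZMod p))) ^ p * (X - C (jqModC (ZMod p) ^ (p ^ 2))) := by
  have : CharP (LaurentSeries (ZMod p)) p := h88_charP_laurent (ZMod p) p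
  rw [h83_eisP, Polynomial.map_map, h88_comp_evalAt, h83_red_jp, h83_map_evalAt_zmod,
    sub_pow_char, ← Polynomial.C_pow, ← pow_mul, pow_two]

/-- `Ψ ≡ (X - j)^{p-1} (X - j^{p²}) mod p`. -/
theorem h83_eisPsi_map_red :
    (h83_eisPsi p Φ).map (h83_red p)
      = (X - C (jqModC (ZMod p))) ^ (p - 1) * (X - C (jqModC (ZMod p) ^ (p ^ 2))) := by
  have hpow : (X - C (jqModC (ZMod p))) ^ p
      = (X - C (jqModC (ZMod p))) * (X - C (jqModC (ZMod p))) ^ (p - 1) := by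
    rw [← pow_succ', Nat.sub_add_cancel hp.out.one_le]
  have hD : (X - C (jqModC ℤ)).map (h83_red p) = X - C (jqModC (ZMod p)) := by
    rw [Polynomial.map_sub, Polynomial.map_X, Polynomial.map_C, h83_red_j]
  rw [h83_eisPsi, Polynomial.map_divByMonic _ (Polynomial.monic_X_sub_C _), hD,
    h83_eisP_map_red]
  rw [hpow, mul_assoc]
  exact Polynomial.mul_divByMonic_cancel_left _ (Polynomial.monic_X_sub_C _)

/-- `Ψ_B ≡ (X - j)^p = X^p - j^p mod p`. -/
theorem h83_eisPsiB_map_red :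
    (h83_eisPsiB p Φ).map (h83_red p) = (X - C (jqModC (ZMod p))) ^ p := by
  have hD : (X - C (qExpand ℤ p (qExpand ℤ p (jqModC ℤ)))).map (h83_red p)
      = X - C (jqModC (ZMod p) ^ (p ^ 2)) := by
    rw [Polynomial.map_sub, Polynomial.map_X, Polynomial.map_C, h83_red_jpp]
  rw [h83_eisPsiB, Polynomial.map_divByMonic _ (Polynomial.monic_X_sub_C _), hD,
    h83_eisP_map_red, mul_comm]
  exact Polynomial.mul_divByMonic_cancel_left _ (Polynomial.monic_X_sub_C _)

/-- `Ψ_B ≡ X^p - j^p mod p`. -/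
theorem h83_eisPsiB_map_red' :
    (h83_eisPsiB p Φ).map (h83_red p) = X ^ p - C (jqModC (ZMod p) ^ p) := by
  have : CharP (LaurentSeries (ZMod p)) p := h88_charP_laurent (ZMod p) p
  rw [h83_eisPsiB_map_red, sub_pow_char, ← Polynomial.C_pow]

/-! ### The Eisenstein property of `Ψ` at `j` -/

omit hp in
/-- `Ψ(j) = P'(j)`. -/
theorem h83_eisPsi_eval_j_eq_derivative :
    (h83_eisPsi p Φ).eval (jqModC ℤ)
      = (Polynomial.derivative (h83_eisP p Φ)).eval (jqModC ℤ) := by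
  conv_rhs => rw [h83_eisP_eq_mul_eisPsi]
  rw [Polynomial.derivative_mul, Polynomial.derivative_sub, Polynomial.derivative_X,
    Polynomial.derivative_C, sub_zero, one_mul, Polynomial.eval_add, Polynomial.eval_mul,
    Polynomial.eval_sub, Polynomial.eval_X, Polynomial.eval_C, sub_self, zero_mul, add_zero]

/-- The partial derivative `(∂Φ/∂Y)(j, j_p) ∈ ℤ((q))`. -/
def h83_eisDY : LaurentSeries ℤ :=
  (Polynomial.derivative
    (Φ.Φ.eval₂ (Polynomial.mapRingHom (Int.castRingHom (LaurentSeries ℤ)))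
      (C (jqModC ℤ)))).eval (qExpand ℤ p (jqModC ℤ))

omit hp in
/-- The `θ`-identity: `Ψ(j) · θ j = - p · (∂Φ/∂Y)(j, j_p) · (θ j)(q^p)`. -/
theorem h83_eisPsi_eval_j_mul_theta :
    (h83_eisPsi p Φ).eval (jqModC ℤ) * thetaL ℤ (jqModC ℤ)
      = -((p : LaurentSeries ℤ) * (h83_eisDY p Φ * qExpand ℤ p (thetaL ℤ (jqModC ℤ)))) := by
  have h := h83_chain_rule Φ.Φ (jqModC ℤ) (qExpand ℤ p (jqModC ℤ))
  rw [Φ.eval_j, h88_thetaL_zero, h88_thetaL_qExpand] at h
  rw [h83_eisPsi_eval_j_eq_derivative]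
  unfold h83_eisP h83_eisDY
  linear_combination -h

/-- `(∂Φ/∂Y)(j, j_p) ≡ j^{p²} - j mod p`. -/
theorem h83_red_eisDY :
    h83_red p (h83_eisDY p Φ) = jqModC (ZMod p) ^ (p ^ 2) - jqModC (ZMod p) := by
  have : CharP (LaurentSeries (ZMod p)) p := h88_charP_laurent (ZMod p) p
  have hcomp : (Polynomial.mapRingHom (h83_red p)).comp
      (Polynomial.mapRingHom (Int.castRingHom (LaurentSeries ℤ)))
      = Polynomial.mapRingHom (Int.castRingHom (LaurentSeries (ZMod p))) := by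
    apply Polynomial.ringHom_ext
    · intro a
      simp
    · simp
  have hQ : (Φ.Φ.eval₂ (Polynomial.mapRingHom (Int.castRingHom (LaurentSeries ℤ)))
      (C (jqModC ℤ))).map (h83_red p)
      = (C (jqModC (ZMod p) ^ p) - X) * (C (jqModC (ZMod p)) - X ^ p) := by
    rw [← Polynomial.coe_mapRingHom, Polynomial.hom_eval₂, hcomp, Polynomial.coe_mapRingHom,
      Polynomial.map_C, h83_red_j, h83_eval₂_C_zmod]
  have hpz : ((p : ℕ) : LaurentSeries (ZMod p)) = 0 := CharP.cast_eq_zero _ p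
  unfold h83_eisDY
  rw [← Polynomial.eval₂_hom, ← Polynomial.eval_map, ← Polynomial.derivative_map, hQ, h83_red_jp,
    Polynomial.derivative_mul, Polynomial.derivative_sub, Polynomial.derivative_sub,
    Polynomial.derivative_C, Polynomial.derivative_C, Polynomial.derivative_X,
    Polynomial.derivative_X_pow, hpz]
  simp only [Polynomial.eval_add, Polynomial.eval_mul, Polynomial.eval_sub, Polynomial.eval_C,
    Polynomial.eval_X, Polynomial.eval_pow, Polynomial.eval_zero, Polynomial.eval_one, Polynomial.eval_neg,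
    Polynomial.C_0, zero_mul, zero_sub, sub_zero, mul_zero, add_zero, ← pow_mul, pow_two]
  ring

/-- **Eisenstein property of `Ψ` at `j`**: `Ψ(j) = p · U` with `U` a unit modulo `p`;
more precisely `U · θ j = -(∂Φ/∂Y)(j, j_p) · (θ j)(q^p)` and
`Ū · θ j̄ = (j̄ - j̄^{p²}) · (θ j̄)^p`. -/
theorem h83_eisenstein :
    ∃ U : LaurentSeries ℤ,
      (h83_eisPsi p Φ).eval (jqModC ℤ) = (p : LaurentSeries ℤ) * U ∧
      U * thetaL ℤ (jqModC ℤ)
        = -(h83_eisDY p Φ * qExpand ℤ p (thetaL ℤ (jqModC ℤ))) ∧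
      h83_red p U * thetaL (ZMod p) (jqModC (ZMod p))
        = (jqModC (ZMod p) - jqModC (ZMod p) ^ (p ^ 2))
            * thetaL (ZMod p) (jqModC (ZMod p)) ^ p ∧
      h83_red p U ≠ 0 := by
  obtain ⟨V, hV⟩ := (h83_isUnit_thetaL_jqModC ℤ).exists_right_inv
  have hθ := h83_eisPsi_eval_j_mul_theta p Φ
  set T := thetaL ℤ (jqModC ℤ) with hT
  set D := h83_eisDY p Φ with hD
  have h2 : (-(D * qExpand ℤ p T) * V) * T = -(D * qExpand ℤ p T) := by
    linear_combination (-(D * qExpand ℤ p T)) * hV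
  have h3 : h83_red p (-(D * qExpand ℤ p T) * V) * thetaL (ZMod p) (jqModC (ZMod p))
      = (jqModC (ZMod p) - jqModC (ZMod p) ^ (p ^ 2))
          * thetaL (ZMod p) (jqModC (ZMod p)) ^ p := by
    have h := congrArg (h83_red p) h2
    rw [map_mul, map_neg (h83_red p) (D * qExpand ℤ p T), map_mul (h83_red p) D, hD,
      h83_red_eisDY, hT] at h
    rw [show h83_red p (thetaL ℤ (jqModC ℤ)) = thetaL (ZMod p) (jqModC (ZMod p)) from by
        rw [h83_red, h88_coeffMap_thetaL, coeffMap_jqModC],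
      show h83_red p (qExpand ℤ p (thetaL ℤ (jqModC ℤ)))
          = thetaL (ZMod p) (jqModC (ZMod p)) ^ p from by
        rw [h83_red, coeffMap_qExpand, h88_coeffMap_thetaL, coeffMap_jqModC,
          h88_qExpand_zmod]] at h
    rw [h]
    ring
  refine ⟨-(D * qExpand ℤ p T) * V, ?_, h2, h3, ?_⟩
  · linear_combination V * hθ - ((h83_eisPsi p Φ).eval (jqModC ℤ)) * hV
  · intro h0
    rw [h0, zero_mul] at h3
    rcases mul_eq_zero.mp h3.symm with h | h
    · exact h83_jbar_ne_pow p (sub_eq_zero.mp h)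
    · exact h83_thetaL_jqModC_ne_zero (ZMod p) (pow_eq_zero_iff (NeZero.ne p) |>.mp h)

/-! ### Rings of definition -/

omit hp in
/-- `evalAt y` factors through any subring containing `y`. -/
theorem h83_subtype_comp_aeval (S : Subring (LaurentSeries ℤ)) {y : LaurentSeries ℤ}
    (hy : y ∈ S) :
    S.subtype.comp (Polynomial.aeval (R := ℤ) (⟨y, hy⟩ : S)).toRingHom = evalAt y := by
  apply Polynomial.ringHom_ext
  · intro a
    simp [evalAt]
  · simp [evalAt]

omit hp in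
/-- `P` has coefficients in `ℤ[j_p]`. -/
theorem h83_eisP_mem_lifts (S : Subring (LaurentSeries ℤ))
    (hjp : qExpand ℤ p (jqModC ℤ) ∈ S) :
    ∃ P₀ : Polynomial S, P₀.Monic ∧ P₀.map S.subtype = h83_eisP p Φ :=
  ⟨Φ.Φ.map (Polynomial.aeval (R := ℤ) (⟨_, hjp⟩ : S)).toRingHom, Φ.monic.map _, by
    rw [Polynomial.map_map, h83_subtype_comp_aeval S hjp, h83_eisP]⟩

omit hp in
/-- `Ψ` has coefficients in `ℤ[j, j_p]`. -/
theorem h83_eisPsi_mem_lifts (S : Subring (LaurentSeries ℤ)) (hj : jqModC ℤ ∈ S)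
    (hjp : qExpand ℤ p (jqModC ℤ) ∈ S) :
    ∃ Ψ₀ : Polynomial S, Ψ₀.Monic ∧ Ψ₀.map S.subtype = h83_eisPsi p Φ := by
  obtain ⟨P₀, hP₀m, hP₀⟩ := h83_eisP_mem_lifts p Φ S hjp
  have hD : (X - C (⟨jqModC ℤ, hj⟩ : S)).map S.subtype = X - C (jqModC ℤ) := by
    rw [Polynomial.map_sub, Polynomial.map_X, Polynomial.map_C]
    rfl
  have hmap : (P₀ /ₘ (X - C (⟨jqModC ℤ, hj⟩ : S))).map S.subtype = h83_eisPsi p Φ := by
    rw [Polynomial.map_divByMonic _ (Polynomial.monic_X_sub_C _), hD, hP₀, h83_eisPsi]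
  refine ⟨P₀ /ₘ (X - C (⟨jqModC ℤ, hj⟩ : S)), ?_, hmap⟩
  have hinj : Function.Injective S.subtype := Subtype.val_injective
  have hm := h83_eisPsi_monic p Φ
  rw [← hmap] at hm
  exact Polynomial.monic_of_injective hinj hm

omit hp in
/-- `Ψ_B` has coefficients in `ℤ[j_p, j_{pp}]`. -/
theorem h83_eisPsiB_mem_lifts (S : Subring (LaurentSeries ℤ))
    (hjp : qExpand ℤ p (jqModC ℤ) ∈ S)
    (hjpp : qExpand ℤ p (qExpand ℤ p (jqModC ℤ)) ∈ S) :
    ∃ Ψ₀ : Polynomial S, Ψ₀.Monic ∧ Ψ₀.map S.subtype = h83_eisPsiB p Φ := by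
  obtain ⟨P₀, hP₀m, hP₀⟩ := h83_eisP_mem_lifts p Φ S hjp
  have hD : (X - C (⟨_, hjpp⟩ : S)).map S.subtype
      = X - C (qExpand ℤ p (qExpand ℤ p (jqModC ℤ))) := by
    rw [Polynomial.map_sub, Polynomial.map_X, Polynomial.map_C]
    rfl
  have hmap : (P₀ /ₘ (X - C (⟨_, hjpp⟩ : S))).map S.subtype = h83_eisPsiB p Φ := by
    rw [Polynomial.map_divByMonic _ (Polynomial.monic_X_sub_C _), hD, hP₀, h83_eisPsiB]
  refine ⟨P₀ /ₘ (X - C (⟨_, hjpp⟩ : S)), ?_, hmap⟩
  have hinj : Function.Injective S.subtype := Subtype.val_injective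
  have hm := h83_eisPsiB_monic p Φ
  rw [← hmap] at hm
  exact Polynomial.monic_of_injective hinj hm

/-! ### Integral form: `Ψ = (X - j)^{p-1} (X - j^{p²}) + p · G` with `G(j)` a unit mod `p` -/

omit hp in
/-- The kernel of the reduction `ℤ((q)) → 𝔽_p((q))` is generated by `p`. -/
theorem h83_dvd_of_red_eq_zero {x : LaurentSeries ℤ} (hx : h83_red p x = 0) :
    (p : LaurentSeries ℤ) ∣ x := by
  have hcoeff : ∀ n : ℤ, (p : ℤ) ∣ x.coeff n := by
    intro n
    have h := congrArg (fun y : LaurentSeries (ZMod p) => y.coeff n) hx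
    simp only [h83_red, coeffMap_coeff, HahnSeries.coeff_zero, Int.coe_castRingHom] at h
    exact (ZMod.intCast_zmod_eq_zero_iff_dvd _ p).mp h
  have hp0 : (p : ℤ) ≠ 0 := by exact_mod_cast NeZero.ne p
  refine ⟨⟨fun n => x.coeff n / (p : ℤ), x.isPWO_support.mono fun n hn => ?_⟩, ?_⟩
  · simp only [Function.mem_support, ne_eq] at hn ⊢
    intro h0
    exact hn (by rw [h0, Int.zero_ediv])
  · have hc : (p : LaurentSeries ℤ) = HahnSeries.C ((p : ℕ) : ℤ) :=
      (map_natCast (HahnSeries.C : ℤ →+* LaurentSeries ℤ) p).symm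
    ext n
    rw [hc, HahnSeries.C_mul_eq_smul, HahnSeries.coeff_smul, smul_eq_mul]
    exact (Int.mul_ediv_cancel' (hcoeff n)).symm

omit hp in
/-- A polynomial over `ℤ((q))` whose reduction mod `p` vanishes is divisible by `p`. -/
theorem h83_C_dvd_of_map_red_eq_zero {D : Polynomial (LaurentSeries ℤ)}
    (hD : D.map (h83_red p) = 0) : C (p : LaurentSeries ℤ) ∣ D := by
  rw [Polynomial.C_dvd_iff_dvd_coeff]
  intro i
  apply h83_dvd_of_red_eq_zero
  have h := congrArg (fun q : Polynomial (LaurentSeries (ZMod p)) => q.coeff i) hD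
  simpa only [Polynomial.coeff_map, Polynomial.coeff_zero] using h

omit hp in
theorem h83_natCast_ne_zero : (p : LaurentSeries ℤ) ≠ 0 := by
  have hc : (p : LaurentSeries ℤ) = HahnSeries.C ((p : ℕ) : ℤ) :=
    (map_natCast (HahnSeries.C : ℤ →+* LaurentSeries ℤ) p).symm
  rw [hc]
  intro h
  have h1 : ((p : ℕ) : ℤ) = 0 := HahnSeries.C_injective (by rw [h, map_zero])
  exact NeZero.ne p (by exact_mod_cast h1)

/-- `P = (X - j)^p (X - j^{p²}) + p · G_P` over `ℤ((q))`. -/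
theorem h83_eisP_eq_add :
    ∃ G : Polynomial (LaurentSeries ℤ),
      h83_eisP p Φ = (X - C (jqModC ℤ)) ^ p * (X - C (jqModC ℤ ^ (p ^ 2)))
        + C (p : LaurentSeries ℤ) * G := by
  have hD : (h83_eisP p Φ - (X - C (jqModC ℤ)) ^ p * (X - C (jqModC ℤ ^ (p ^ 2)))).map
      (h83_red p) = 0 := by
    rw [Polynomial.map_sub, h83_eisP_map_red]
    simp only [Polynomial.map_mul, Polynomial.map_pow, Polynomial.map_sub, Polynomial.map_X,
      Polynomial.map_C, map_pow, h83_red_j, sub_self]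
  obtain ⟨G, hG⟩ := h83_C_dvd_of_map_red_eq_zero p hD
  exact ⟨G, by rw [← hG]; ring⟩

/-- `Ψ_B = X^p - j^p + p · G_B` over `ℤ((q))`. -/
theorem h83_eisPsiB_eq_add :
    ∃ G : Polynomial (LaurentSeries ℤ),
      h83_eisPsiB p Φ = X ^ p - C (jqModC ℤ ^ p) + C (p : LaurentSeries ℤ) * G := by
  have hD : (h83_eisPsiB p Φ - (X ^ p - C (jqModC ℤ ^ p))).map (h83_red p) = 0 := by
    rw [Polynomial.map_sub, h83_eisPsiB_map_red']
    simp only [Polynomial.map_pow, Polynomial.map_sub, Polynomial.map_X,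
      Polynomial.map_C, map_pow, h83_red_j, sub_self]
  obtain ⟨G, hG⟩ := h83_C_dvd_of_map_red_eq_zero p hD
  exact ⟨G, by rw [← hG]; ring⟩

/-- **Eisenstein-split form of `Ψ`** (the hypothesis shape of the two-valuation lemma):
`Ψ = (X - j)^{p-1} (X - j^{p²}) + p · G` over `ℤ((q))`, with `G(j) ≢ 0 mod p` and
`j^{p²} - j ≢ 0 mod p`. -/
theorem h83_eisPsi_eq_add :
    ∃ G : Polynomial (LaurentSeries ℤ),
      h83_eisPsi p Φ = (X - C (jqModC ℤ)) ^ (p - 1) * (X - C (jqModC ℤ ^ (p ^ 2)))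
        + C (p : LaurentSeries ℤ) * G ∧
      (h83_eisPsi p Φ).eval (jqModC ℤ) = (p : LaurentSeries ℤ) * G.eval (jqModC ℤ) ∧
      h83_red p (G.eval (jqModC ℤ)) ≠ 0 ∧
      h83_red p (jqModC ℤ ^ (p ^ 2) - jqModC ℤ) ≠ 0 := by
  have hD : (h83_eisPsi p Φ
      - (X - C (jqModC ℤ)) ^ (p - 1) * (X - C (jqModC ℤ ^ (p ^ 2)))).map (h83_red p) = 0 := by
    rw [Polynomial.map_sub, h83_eisPsi_map_red]
    simp only [Polynomial.map_mul, Polynomial.map_pow, Polynomial.map_sub, Polynomial.map_X,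
      Polynomial.map_C, map_pow, h83_red_j, sub_self]
  obtain ⟨G, hG⟩ := h83_C_dvd_of_map_red_eq_zero p hD
  have hΨ : h83_eisPsi p Φ = (X - C (jqModC ℤ)) ^ (p - 1) * (X - C (jqModC ℤ ^ (p ^ 2)))
      + C (p : LaurentSeries ℤ) * G := by rw [← hG]; ring
  have hp1 : p - 1 ≠ 0 := Nat.sub_ne_zero_of_lt hp.out.one_lt
  have hev : (h83_eisPsi p Φ).eval (jqModC ℤ) = (p : LaurentSeries ℤ) * G.eval (jqModC ℤ) := by
    conv_lhs => rw [hΨ]
    rw [Polynomial.eval_add, Polynomial.eval_mul, Polynomial.eval_pow, Polynomial.eval_sub,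
      Polynomial.eval_X, Polynomial.eval_C, sub_self, zero_pow hp1, zero_mul, zero_add,
      Polynomial.eval_mul, Polynomial.eval_C]
  refine ⟨G, hΨ, hev, ?_, ?_⟩
  · obtain ⟨U, hU, -, -, hU0⟩ := h83_eisenstein p Φ
    have hGU : G.eval (jqModC ℤ) = U :=
      mul_left_cancel₀ (h83_natCast_ne_zero p) (hev.symm.trans hU)
    rw [hGU]
    exact hU0
  · rw [map_sub, map_pow, h83_red_j]
    exact sub_ne_zero.mpr (h83_jbar_ne_pow p).symm

end Main

end Fermat.Agent.S36.H83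

end
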